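/-
S55 / (L-b) P1 limit half (helper62), part 5: `CDArith63.P1Chain.HasFormationDatum p S V hV`
(helper63's single target for (P1)) from inputs on the TRUE `S`-idele class module
`C_S = CSl S = coker (Q_Sˣ → J_S × I^S)` (helper79 `CS79.CofinalCS.CS`, helper72 `ClassData72.CSl`),
the module for which the leaves 31/32/33 (two inequalities) and 35 (global invariant) produce a
class formation.  This is the (P1)-twin of helper41's `S1Limit41.Global` (P6).

Unconditional ingredients used here:
* `ClassData72.shortExact S : 0 → C'_S → C_S → Cl_S → 0`, `Cl_S` prime-to-`p` torsion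
  (class-number finiteness + `p`-capitulation), `C_S` smooth (helper72);
* `S1Limit41.Transfer` (helper41): transfer of `invC`, `hinjC`, `hrec`, `hH1C` from `C_S` to
  `C'_S = J_S/E_S = CSp S`;
* `TateNak43.LocalUncond.h3Vanishes_JSp` : level `H³(V, J_S) = 0` (helper94 + helper45 + helper43
  + helper51), so conjunct (6) is discharged.

Remaining named inputs (all stated over `𝒱 = restrictLevels (globalLevels S) V hV`):
* the `J`-side `invJ`, `hinj`, `hsurj` (52: helper94 `OpenJS` + 22b + helper46 tower split);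
* `invC` on `H²(V, C_S)`, injective on `p`-primary classes, with the sum formula `hrecC`
  (35 + L-d) — LITERALLY the binders `invC hinj hrecC` of `S1Limit41.Global.range_loc_iffV`;
* `H¹(V, C_S)(p) = 0` (33), e.g. from `CS79.CofinalCS.IneqOut` (31 + 32c-B).
-/
import Fermat.Agent.S55.CDArith63.P1Chain
import Fermat.Agent.S55.CDArith63.Pieces
import Fermat.Agent.S55.ClassData72
import Fermat.Agent.S55.S1Limit41.Global
import Fermat.Agent.S55.CS79.CofinalCS
import Fermat.Agent.S55.TateNak43.LocalUncond

set_option autoImplicit false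
set_option linter.unusedSectionVars false
set_option linter.unusedVariables false

open CategoryTheory groupCohomology ExtCitation

namespace Fermat.Agent.S55.P1Lim62.ClassDatum

open Fermat.Agent.S55.Profin15 Fermat.Agent.S55.Profin15.LevelStr Fermat.Agent.S55.CD3
open Fermat.Agent.S55.CDArith63 Fermat.Agent.S55.CDArith63.Adapter
open Fermat.Agent.S55.CDArith63.P1Chain
open Fermat.Agent.S55.ESRep20 Fermat.Agent.S55.GlobalMod94.JS
open Fermat.Agent.S55.QZ33 Fermat.Agent.S55.ClassData72 Fermat.Agent.S55.ClassLimit72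
open Fermat.Agent.S55.CS79.Restrict Fermat.Agent.S55.CS79.Primary
open Fermat.Agent.S55.S1Limit41.Global Fermat.Agent.S55.S1Limit41.Transfer

variable {p : ℕ} [hp : Fact p.Prime] {S : Finset Nat.Primes} (V : Subgroup GQ41)
  (hV : IsOpenSub (globalLevels S) V)

/-- **conjunct (6), unconditionally**: `H³(V, J_S)[p] = 0` in the cochain form of
`HasFormationDatum`. -/
theorem hH3J (p : ℕ) (S : Finset Nat.Primes) (V : Subgroup GQ41)
    (hV : IsOpenSub (globalLevels S) V) :
    H3TorsVan (restrictLevels (globalLevels S) V hV) p (resSub (canρ (JSp S)) V) :=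
  Pieces.h3TorsVan_resSub_of_H3Vanishes (globalLevels S) (JSp S) p V hV
    (TateNak43.LocalUncond.h3Vanishes_JSp S V hV)

/-- the short exact sequence `0 → C'_S → C_S → Cl_S → 0` restricted to `V` -/
theorem classV (S : Finset Nat.Primes) (V : Subgroup GQ41) :
    ShortExact (A := Rep.res V.subtype (CSp S)) (B := Rep.res V.subtype (CSl S))
      (C := Rep.res V.subtype (ClS S))
      (resLin (A := CSp S) (B := CSl S) V.subtype (phi S))
      (resLin (A := CSl S) (B := ClS S) V.subtype (psi S)) :=
  (ClassData72.shortExact S).res V.subtype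

theorem CSlV_isSmooth : (levV S V hV).IsSmooth (Rep.res V.subtype (CSl S)) :=
  isSmooth_res (isSmooth_CSl S) hV

/-- **(L-b): the limit formation datum over `V` from class-formation inputs on the TRUE class
module `C_S = CSl S`.** -/
theorem hasFormationDatum_of_class (hpS : pPrime p ∈ S)
    {W : Type} [Fintype W] [Nonempty W]
    (invJ : W → ((levV S V hV).H2 (JV S V) →+ QZ))
    (hinj : ∀ (x : (levV S V hV).H2 (JV S V)) (n : ℕ),
      (p ^ n) • x = 0 → (∀ w, invJ w x = 0) → x = 0)
    (hsurj : ∀ (t : W → QZ) (n : ℕ), (∀ w, (p ^ n) • t w = 0) →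
      ∃ x : (levV S V hV).H2 (JV S V), (p ^ n) • x = 0 ∧ ∀ w, invJ w x = t w)
    (invC : (levV S V hV).H2 (Rep.res V.subtype (CSl S)) →+ QZ)
    (hinjC : ∀ (y : (levV S V hV).H2 (Rep.res V.subtype (CSl S))) (n : ℕ),
      p ^ n • y = 0 → invC y = 0 → y = 0)
    (hrecC : ∀ y : (levV S V hV).H2 (JV S V),
      invC ((levV S V hV).H2map
        (resLin (A := CSp S) (B := CSl S) V.subtype (phi S) ∘ₗ
          resLin (A := JSp S) (B := CSp S) V.subtype (πCS S).hom.toLinearMap)
        ((ideleV S V (nonempty_of_mem S hpS)).equivariant_right.comp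
          (classV S V).equivariant_left) y) = ∑ w, invJ w y)
    (hH1C : ∀ (c : (levV S V hV).H1 (Rep.res V.subtype (CSl S))) (n : ℕ),
      p ^ n • c = 0 → c = 0) :
    HasFormationDatum p S V hV := by
  refine ⟨W, inferInstance, inferInstance, invJ,
    invC' (levV S V hV) (classV S V) invC, hinj, hsurj, ?_, ?_, ?_, hH3J p S V hV⟩
  · -- `invC'` is injective on `p`-primary classes
    intro y n hy h0
    exact hinvC_primary_of_class (levV S V hV) (classV S V) (CSlV_isSmooth V hV)
      (isPrimeToP_ClS S hpS) invC hinjC y n hy h0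
  · -- the sum formula
    intro x
    rw [invC'_apply, ← H2map_comp]
    exact hrecC x
  · -- `H¹(V, C'_S)(p) = 0`
    intro y n hy
    exact hC1_primary_of_class (levV S V hV) (classV S V) (CSlV_isSmooth V hV)
      (isPrimeToP_ClS S hpS) hH1C y n hy

/-- the same with `H¹(V, C_S)(p) = 0` in helper79's form `H1PrimaryVanishes` -/
theorem hasFormationDatum_of_class' (hpS : pPrime p ∈ S)
    {W : Type} [Fintype W] [Nonempty W]
    (invJ : W → ((levV S V hV).H2 (JV S V) →+ QZ))
    (hinj : ∀ (x : (levV S V hV).H2 (JV S V)) (n : ℕ),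
      (p ^ n) • x = 0 → (∀ w, invJ w x = 0) → x = 0)
    (hsurj : ∀ (t : W → QZ) (n : ℕ), (∀ w, (p ^ n) • t w = 0) →
      ∃ x : (levV S V hV).H2 (JV S V), (p ^ n) • x = 0 ∧ ∀ w, invJ w x = t w)
    (invC : (levV S V hV).H2 (Rep.res V.subtype (CSl S)) →+ QZ)
    (hinjC : ∀ (y : (levV S V hV).H2 (Rep.res V.subtype (CSl S))) (n : ℕ),
      p ^ n • y = 0 → invC y = 0 → y = 0)
    (hrecC : ∀ y : (levV S V hV).H2 (JV S V),
      invC ((levV S V hV).H2map
        (resLin (A := CSp S) (B := CSl S) V.subtype (phi S) ∘ₗ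
          resLin (A := JSp S) (B := CSp S) V.subtype (πCS S).hom.toLinearMap)
        ((ideleV S V (nonempty_of_mem S hpS)).equivariant_right.comp
          (classV S V).equivariant_left) y) = ∑ w, invJ w y)
    (hH1C : H1PrimaryVanishes (levV S V hV) p (Rep.res V.subtype (CSl S))) :
    HasFormationDatum p S V hV :=
  hasFormationDatum_of_class V hV hpS invJ hinj hsurj invC hinjC hrecC
    (fun c n hc => hH1C c ⟨n, hc⟩)

/-- **(P1) from the two inequalities (`IneqOut`, leaves 31 + 32c-B) and, for every open `V ≤ V₀`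
fixing `μ_p`, the invariant data `(invJ, invC)` with the sum formula.**  `V₀` is the open subgroup
below which the second inequality is available (the fixing subgroup of `ℚ(μ_p)`). -/
theorem globalRightExact_of_class (hpS : pPrime p ∈ S)
    {L₀ : IntermediateField ℚ (AlgebraicClosure ℚ)} (hL₀ : L₀.IsUnramifiedOutside S)
    {V₀ : Subgroup GQ41} (hineq : CS79.CofinalCS.IneqOut S p L₀ V₀)
    (hV₀ : ∀ V : Subgroup GQ41, Global.MuTriv p V → V ≤ V₀)
    (h : ∀ (V : Subgroup GQ41) (hV : IsOpenSub (globalLevels S) V), Global.MuTriv p V →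
      ∃ (W : Type) (_ : Fintype W) (_ : Nonempty W)
        (invJ : W → ((levV S V hV).H2 (JV S V) →+ QZ))
        (invC : (levV S V hV).H2 (Rep.res V.subtype (CSl S)) →+ QZ),
        (∀ (x : (levV S V hV).H2 (JV S V)) (n : ℕ),
          (p ^ n) • x = 0 → (∀ w, invJ w x = 0) → x = 0) ∧
        (∀ (t : W → QZ) (n : ℕ), (∀ w, (p ^ n) • t w = 0) →
          ∃ x : (levV S V hV).H2 (JV S V), (p ^ n) • x = 0 ∧ ∀ w, invJ w x = t w) ∧
        (∀ (y : (levV S V hV).H2 (Rep.res V.subtype (CSl S))) (n : ℕ),
          p ^ n • y = 0 → invC y = 0 → y = 0) ∧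
        (∀ y : (levV S V hV).H2 (JV S V),
          invC ((levV S V hV).H2map
            (resLin (A := CSp S) (B := CSl S) V.subtype (phi S) ∘ₗ
              resLin (A := JSp S) (B := CSp S) V.subtype (πCS S).hom.toLinearMap)
            ((ideleV S V (nonempty_of_mem S hpS)).equivariant_right.comp
              (classV S V).equivariant_left) y) = ∑ w, invJ w y)) :
    Contract34.GlobalRightExact p S :=
  globalRightExact_of_datum hpS (fun V hV hmu => by
    obtain ⟨W, hW, hW', invJ, invC, hinj, hsurj, hinjC, hrecC⟩ := h V hV hmu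
    exact hasFormationDatum_of_class' V hV hpS invJ hinj hsurj invC hinjC hrecC
      (CS79.CofinalCS.h1PrimaryVanishes_CS_res ⟨_, hpS⟩ hL₀ hineq V hV (hV₀ V hmu)))

end Fermat.Agent.S55.P1Lim62.ClassDatum
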