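/-
S55 / (L-b) P1 limit half (helper62), part 6: THE P1 ENDPOINT.

`Contract34.GlobalRightExact p S` (literal plug P1) from FOUR named arithmetic inputs:

* `LocalPres S`        : helper28's `LocInv28.Main.PresCochain K` for every finite `K/ℚ_q`, `q ∈ S`
                         (22b; the only open input of the local invariant `invW`);
* `TowerSplit p S q`   : helper94's `GlobalMod94.OpenJS.TowerSplit` for `q ∈ S` (helper46: every
                         `p`-primary local Brauer class is split by an `S`-level);
* `SecondIneqMu S p`   : helper77's `Adapt77.Conj5.SecondIneqMu` (32c-B, second inequality);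
* for every open `V` fixing `μ_p`: `invC` on the level `H²(V, C_S)` of the TRUE class module
  `C_S = ClassData72.CSl S`, injective on `p`-primary classes, with the SUM FORMULA against the
  CONCRETE local invariants `invJ w = invW_w ∘ locW_w` defined here (35 + L-d).

Everything else is discharged from landed theorems: the `J`-side `hinj`/`hsurj` (helper64
`JSH2_64`, helper94 `OpenJS.jside_JS`, helper28 `invW`), conjunct (5) (helper77 `Conj5`: 31 +
36-D2 + L-a + capitulation), conjunct (6) (`TateNak43.LocalUncond`), the transfer `C_S ⇝ C'_S`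
(`P1Lim62.ClassDatum`), the Kummer step and the dévissage (`CDArith63.P1Chain`).
-/
import Fermat.Agent.S55.P1Lim62.ClassDatum
import Fermat.Agent.S55.GlobalMod94.OpenJS
import Fermat.Agent.S55.LocInv28.OpenSub
import Fermat.Agent.S55.Adapt77.Conj5

set_option autoImplicit false
set_option linter.unusedSectionVars false
set_option linter.unusedVariables false

open CategoryTheory groupCohomology ExtCitation

namespace Fermat.Agent.S55.P1Lim62.Endpoint

open Fermat.Agent.S55.Profin15 Fermat.Agent.S55.Profin15.LevelStr Fermat.Agent.S55.CD3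
open Fermat.Agent.S55.CDArith63 Fermat.Agent.S55.CDArith63.Adapter
open Fermat.Agent.S55.CDArith63.P1Chain
open Fermat.Agent.S55.Idele73 Fermat.Agent.S55.Idele73.Basic
open Fermat.Agent.S55.GlobalMod94.JS Fermat.Agent.S55.GlobalMod94.OpenJS
open Fermat.Agent.S55.GlobalMod94.OpenDatum
open Fermat.Agent.S55.QZ33 Fermat.Agent.S55.ClassData72 Fermat.Agent.S55.PrimaryExt14
open Fermat.Agent.S55.LocField17 Fermat.Agent.S55.LocInv28.Main Fermat.Agent.S55.LocInv28.OpenSub
open Fermat.Agent.S55.S1Limit41.Global Fermat.Agent.S55.Adapt77.Conj5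
open Fermat.Agent.S55.P1Lim62.ClassDatum

/-- **22b's named input at the primes of `S`**: the cochain-level presentation of local Brauer
classes by unramified carry classes (helper81 `LocPres81` ⇒ helper28 `PresCochain`). -/
def LocalPres (S : Finset Nat.Primes) : Prop :=
  ∀ q : ↥S, ∀ (K : LF ((q : Nat.Primes) : ℕ)) [FiniteDimensional ℚ_[((q : Nat.Primes) : ℕ)] K],
    PresCochain K

variable {p : ℕ} [hp : Fact p.Prime] (S : Finset Nat.Primes) (V : Subgroup GQ)
  (hV : IsOpenSub (globalLevels S) V)

include hV in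
/-- the decomposition groups `G_w = twSub r_q V x` are open for the levels pulled back from
`G_ℚ` -/
theorem isOpen_Gw (q : ↥S) (x : GQ) :
    ∃ W ∈ (pullLevels (rS S q)).levels, W ≤ Mackey.twSub (rS S q) V x := by
  obtain ⟨U, hU, hUV⟩ := hV
  obtain ⟨W₀, hW₀, hle⟩ := isContinuous_pullLevels S (rS S q) U hU
  refine ⟨W₀, hW₀, fun t ht => ?_⟩
  rw [Mackey.mem_twSub]
  have h1 : rS S q t ∈ U := hle ht
  have hn := (globalLevels S).normal U hU
  have := hn.conj_mem _ h1 x⁻¹
  rw [inv_inv] at this
  exact hUV this

variable (hP : LocalPres S)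

/-- **the local invariant at the place `w`** of the fixed field of `V` (helper28's `invW`) -/
noncomputable def invPlace (w : PlaceV S V hV) : BrW S V hV w ≃+ QZ :=
  invW (Mackey.twSub (rS S w.1) V w.2) (isOpen_Gw S V hV w.1 w.2) (hP w.1)

/-- **the local invariant maps on `H²(V, J_S)`**: localise at `w` (helper94's `locW`), take the
local invariant. -/
noncomputable def invJ (w : PlaceV S V hV) :
    (restrictLevels (globalLevels S) V hV).H2 (Rep.res V.subtype (JSp S)) →+ QZ :=
  (invPlace S V hV hP w).toAddMonoidHom.comp (locW S V hV w).toAddMonoidHom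

theorem invJ_apply (w : PlaceV S V hV)
    (x : (restrictLevels (globalLevels S) V hV).H2 (Rep.res V.subtype (JSp S))) :
    invJ S V hV hP w x = invPlace S V hV hP w (locW S V hV w x) := rfl

/-- **conjunct (1)**, unconditional modulo `LocalPres`: the `invJ` are jointly injective -/
theorem invJ_inj (x : (restrictLevels (globalLevels S) V hV).H2 (Rep.res V.subtype (JSp S)))
    (h : ∀ w, invJ S V hV hP w x = 0) : x = 0 := by
  refine locW_jointly_injective S V hV x (fun w => ?_)
  have hw := h w
  rw [invJ_apply] at hw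
  exact (invPlace S V hV hP w).map_eq_zero_iff.1 hw

/-- **conjunct (2)** from `TowerSplit`: the `invJ` are jointly onto the `p`-primary part -/
theorem invJ_surj (hts : ∀ q : ↥S, TowerSplit p S ((q : Nat.Primes) : ℕ))
    (t : PlaceV S V hV → QZ) (n : ℕ) (ht : ∀ w, (p ^ n) • t w = 0) :
    ∃ x : (restrictLevels (globalLevels S) V hV).H2 (Rep.res V.subtype (JSp S)),
      (p ^ n) • x = 0 ∧ ∀ w, invJ S V hV hP w x = t w := by
  obtain ⟨invJp, hform, -, hsurjp⟩ := jside_JS S V hV (T := QZ) p hts
    (fun w => (invPlace S V hV hP w).toAddMonoidHom.comp (primary p (BrW S V hV w)).subtype)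
    (fun w y hy => by
      apply Subtype.ext
      exact (invPlace S V hV hP w).map_eq_zero_iff.1 hy)
    (fun w t n ht => by
      obtain ⟨y, hy0, hyt⟩ := invW_surj (Mackey.twSub (rS S w.1) V w.2)
        (isOpen_Gw S V hV w.1 w.2) (hP w.1) t (p ^ n) ht
      exact ⟨⟨y, ⟨n, hy0⟩⟩, Subtype.ext hy0, hyt⟩)
  obtain ⟨x, hx0, hxt⟩ := hsurjp t n ht
  refine ⟨(x : (restrictLevels (globalLevels S) V hV).H2 (Rep.res V.subtype (JSp S))), ?_,
    fun w => ?_⟩
  · have := congrArg Subtype.val hx0
    simpa using this
  · rw [← hxt w, hform w x]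
    rfl

/-- **(L-b) THE LIMIT FORMATION DATUM over `V`** from the four named inputs. -/
theorem hasFormationDatum_of_named (hpS : pPrime p ∈ S) (hp2 : p ≠ 2)
    (hts : ∀ q : ↥S, TowerSplit p S ((q : Nat.Primes) : ℕ)) (h32 : SecondIneqMu S p)
    (hmu : ∀ σ ∈ V, cycloChar p σ = 1)
    (invC : (levV S V hV).H2 (Rep.res V.subtype (CSl S)) →+ QZ)
    (hinjC : ∀ (y : (levV S V hV).H2 (Rep.res V.subtype (CSl S))) (n : ℕ),
      p ^ n • y = 0 → invC y = 0 → y = 0)
    (hrecC : ∀ y : (levV S V hV).H2 (JV S V),
      invC ((levV S V hV).H2map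
        (resLin (A := CSp S) (B := CSl S) V.subtype (phi S) ∘ₗ
          resLin (A := JSp S) (B := CSp S) V.subtype (πCS S).hom.toLinearMap)
        ((ideleV S V (nonempty_of_mem S hpS)).equivariant_right.comp
          (classV S V).equivariant_left) y) = ∑ w, invJ S V hV hP w y) :
    HasFormationDatum p S V hV := by
  have : Nonempty (PlaceV S V hV) := nonempty_placeV S V hV ⟨_, hpS⟩
  refine ⟨PlaceV S V hV, inferInstance, inferInstance, invJ S V hV hP,
    S1Limit41.Transfer.invC' (levV S V hV) (classV S V) invC,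
    fun x n _ h => invJ_inj S V hV hP x h, invJ_surj S V hV hP hts, ?_, ?_,
    h1_primary_CSp_of_second hpS hp2 h32 V hV hmu, hH3J p S V hV⟩
  · intro y n hy h0
    exact S1Limit41.Transfer.hinvC_primary_of_class (levV S V hV) (classV S V)
      (CSlV_isSmooth V hV) (isPrimeToP_ClS S hpS) invC hinjC y n hy h0
  · intro x
    rw [S1Limit41.Transfer.invC'_apply, ← H2map_comp]
    exact hrecC x

/-- **(P1), literally, from the four named inputs.** -/
theorem globalRightExact_of_named (hpS : pPrime p ∈ S) (hp2 : p ≠ 2) (hP : LocalPres S)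
    (hts : ∀ q : ↥S, TowerSplit p S ((q : Nat.Primes) : ℕ)) (h32 : SecondIneqMu S p)
    (hC : ∀ (V : Subgroup GQ) (hV : IsOpenSub (globalLevels S) V),
      (∀ σ ∈ V, cycloChar p σ = 1) →
      ∃ invC : (levV S V hV).H2 (Rep.res V.subtype (CSl S)) →+ QZ,
        (∀ (y : (levV S V hV).H2 (Rep.res V.subtype (CSl S))) (n : ℕ),
          p ^ n • y = 0 → invC y = 0 → y = 0) ∧
        (∀ y : (levV S V hV).H2 (JV S V),
          invC ((levV S V hV).H2map
            (resLin (A := CSp S) (B := CSl S) V.subtype (phi S) ∘ₗ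
              resLin (A := JSp S) (B := CSp S) V.subtype (πCS S).hom.toLinearMap)
            ((ideleV S V (nonempty_of_mem S hpS)).equivariant_right.comp
              (classV S V).equivariant_left) y) = ∑ w, invJ S V hV hP w y)) :
    Contract34.GlobalRightExact p S :=
  globalRightExact_of_datum hpS (fun V hV hmu => by
    obtain ⟨invC, hinjC, hrecC⟩ := hC V hV hmu
    exact hasFormationDatum_of_named S V hV hP hpS hp2 hts h32 hmu invC hinjC hrecC)

end Fermat.Agent.S55.P1Lim62.Endpoint
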