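/-
S55 / (L-b) P1 limit half (helper62), part 4: ASSEMBLY of helper63's single target
`CDArith63.P1Chain.HasFormationDatum p S V hV` from COMPONENT data.

`J_S = ∏_{q ∈ S} J_{S,q}` (helper94's `GlobalMod94.JS.JSp = piObj JSq`), so the `J`-side of the
datum is given one prime `q ∈ S` at a time:

* a finite set `W q` (the places of the fixed field of `V` above `q`), local groups `Y q w`
  (level `H²` of the decomposition group at `w` with coefficients `ℚ̄_qˣ`), localisation maps
  `loc q w : H²(V, J_{S,q}) → Y q w` and local invariants `inv q w : Y q w → ℚ/ℤ`;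
* joint injectivity / surjectivity of the `loc q w` on `p`-primary classes (explicit
  Mackey–Shapiro: helper64 `JSH2_64` part E / helper94 `ExplicitMackey`), injectivity /
  surjectivity of each `inv q w` on `p`-primary classes (22b);
* `H³(V, J_{S,q})[p] = 0` for each `q` (helper45 `H3Jq45` + `CDKummer71.LevelBridge`).

Together with `invC` on `H²(V, C'_S)` (35-LIM, helper99 `LimDesc99`), the sum formula and
`H¹(V, C'_S)(p) = 0` (L-a) this gives `HasFormationDatum`, hence (P1) by
`CDArith63.P1Chain.globalRightExact_of_datum`.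

The SAME component data is the shape consumed by `S1_67.Level.range_loc_iff`
(`locJ`, `inv`, `hJ2`, `hJsurj`, `hrec`, `hinvC`).
-/
import Fermat.Agent.S55.CDArith63.P1Chain
import Fermat.Agent.S55.CDArith63.Pieces
import Fermat.Agent.S55.GlobalMod94.PiCoh

set_option autoImplicit false
set_option linter.unusedSectionVars false
set_option linter.unusedVariables false

open CategoryTheory groupCohomology ExtCitation

namespace Fermat.Agent.S55.P1Lim62.Datum

open Fermat.Agent.S55.Profin15 Fermat.Agent.S55.CD3 Fermat.Agent.S55.CDArith63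
open Fermat.Agent.S55.CDArith63.Adapter Fermat.Agent.S55.CDArith63.P1Chain
open Fermat.Agent.S55.ESDiv20 Fermat.Agent.S55.ESRep20 Fermat.Agent.S55.GlobalMod94.JS
open Fermat.Agent.S55.GlobalMod94.Generic Fermat.Agent.S55.QZ33

variable (p : ℕ) [hp : Fact p.Prime] (S : Finset Nat.Primes)
variable (V : Subgroup GQ) (hV : IsOpenSub (globalLevels S) V)

/-- the projection `Res_V J_S → Res_V J_{S,q}` as a raw linear map -/
noncomputable abbrev prLin (q : ↥S) :=
  LevelStr.resLin (A := JSp S) (B := JSq S ((q : Nat.Primes) : ℕ)) V.subtype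
    (piProj (fun q : ↥S => JSq S ((q : Nat.Primes) : ℕ)) q).hom.toLinearMap

theorem prLin_equivariant (q : ↥S) : LevelStr.IsEquivariant (prLin S V q) :=
  (LevelStr.isEquivariant_hom
    (piProj (fun q : ↥S => JSq S ((q : Nat.Primes) : ℕ)) q)).res V.subtype

theorem prLin_bijective :
    Function.Bijective (fun (m : Rep.res V.subtype (JSp S)) (q : ↥S) => prLin S V q m) :=
  Function.bijective_id

/-- the projection on the level `H²` over `V`: `H²(V, J_S) → H²(V, J_{S,q})` -/
noncomputable def prH2 (q : ↥S) :
    (restrictLevels (globalLevels S) V hV).H2 (Rep.res V.subtype (JSp S)) →+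
      (restrictLevels (globalLevels S) V hV).H2
        (Rep.res V.subtype (JSq S ((q : Nat.Primes) : ℕ))) :=
  ((restrictLevels (globalLevels S) V hV).H2map (prLin S V q)
    (prLin_equivariant S V q)).toAddMonoidHom

/-- a class of `H²(V, J_S)` with vanishing components is zero -/
theorem eq_zero_of_prH2
    (x : (restrictLevels (globalLevels S) V hV).H2 (Rep.res V.subtype (JSp S)))
    (h : ∀ q, prH2 S V hV q x = 0) : x = 0 :=
  GlobalMod94.PiCoh.H2_eq_zero_of_pr (restrictLevels (globalLevels S) V hV)
    (prLin S V) (prLin_equivariant S V) (prLin_bijective S V) x h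

/-- classes of `H²(V, J_S)` with prescribed components exist -/
theorem exists_prH2_eq
    (x : ∀ q : ↥S, (restrictLevels (globalLevels S) V hV).H2
      (Rep.res V.subtype (JSq S ((q : Nat.Primes) : ℕ)))) :
    ∃ y, ∀ q, prH2 S V hV q y = x q :=
  GlobalMod94.PiCoh.exists_H2_pr_eq (restrictLevels (globalLevels S) V hV)
    (prLin S V) (prLin_equivariant S V) (prLin_bijective S V) x

/-- **the `q`-component of the `J`-side of the limit formation datum over `V`.** -/
structure CompDatum (q : ↥S) where
  /-- the places above `q` of the fixed field of `V` -/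
  W : Type
  /-- there are finitely many of them -/
  fintypeW : Fintype W
  /-- the local groups (level `H²` of the decomposition groups) -/
  Y : W → Type
  /-- they are abelian groups -/
  groupY : ∀ w, AddCommGroup (Y w)
  /-- the localisation maps -/
  loc : ∀ w, (restrictLevels (globalLevels S) V hV).H2
    (Rep.res V.subtype (JSq S ((q : Nat.Primes) : ℕ))) →+ Y w
  /-- the local invariants -/
  inv : ∀ w, Y w →+ QZ
  /-- joint injectivity of the localisations on `p`-primary classes -/
  loc_inj : ∀ (x : (restrictLevels (globalLevels S) V hV).H2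
      (Rep.res V.subtype (JSq S ((q : Nat.Primes) : ℕ)))) (n : ℕ),
    (p ^ n) • x = 0 → (∀ w, loc w x = 0) → x = 0
  /-- joint surjectivity of the localisations on `p`-primary classes -/
  loc_surj : ∀ (η : ∀ w, Y w) (n : ℕ), (∀ w, (p ^ n) • η w = 0) →
    ∃ x : (restrictLevels (globalLevels S) V hV).H2
        (Rep.res V.subtype (JSq S ((q : Nat.Primes) : ℕ))),
      (p ^ n) • x = 0 ∧ ∀ w, loc w x = η w
  /-- the local invariants are injective on `p`-primary classes -/
  inv_inj : ∀ (w : W) (b : Y w) (n : ℕ), (p ^ n) • b = 0 → inv w b = 0 → b = 0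
  /-- the local invariants are onto the `p`-primary part of `ℚ/ℤ` -/
  inv_surj : ∀ (w : W) (t : QZ) (n : ℕ), (p ^ n) • t = 0 →
    ∃ b : Y w, (p ^ n) • b = 0 ∧ inv w b = t

attribute [instance] CompDatum.fintypeW CompDatum.groupY

variable {p S V hV}

/-- the places above `S` of the fixed field of `V` -/
abbrev Places (D : ∀ q : ↥S, CompDatum p S V hV q) : Type := Σ q : ↥S, (D q).W

/-- **the local invariant maps on `H²(V, J_S)`**: project to the `q`-component, localise at `w`,
take the local invariant -/
noncomputable def invJ (D : ∀ q : ↥S, CompDatum p S V hV q) (w : Places D) :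
    (restrictLevels (globalLevels S) V hV).H2 (Rep.res V.subtype (JSp S)) →+ QZ :=
  ((D w.1).inv w.2).comp (((D w.1).loc w.2).comp (prH2 S V hV w.1))

theorem invJ_apply (D : ∀ q : ↥S, CompDatum p S V hV q) (q : ↥S) (w : (D q).W)
    (x : (restrictLevels (globalLevels S) V hV).H2 (Rep.res V.subtype (JSp S))) :
    invJ D ⟨q, w⟩ x = (D q).inv w ((D q).loc w (prH2 S V hV q x)) := rfl

/-- **conjunct (1)**: the `invJ` are jointly injective on `p`-primary classes -/
theorem invJ_inj (D : ∀ q : ↥S, CompDatum p S V hV q)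
    (x : (restrictLevels (globalLevels S) V hV).H2 (Rep.res V.subtype (JSp S))) (n : ℕ)
    (hx : (p ^ n) • x = 0) (h : ∀ w, invJ D w x = 0) : x = 0 := by
  refine eq_zero_of_prH2 S V hV x (fun q => ?_)
  have hq : (p ^ n) • prH2 S V hV q x = 0 := by
    rw [← map_nsmul, hx, map_zero]
  refine (D q).loc_inj _ n hq (fun w => ?_)
  refine (D q).inv_inj w _ n ?_ (h ⟨q, w⟩)
  rw [← map_nsmul, hq, map_zero]

/-- **conjunct (2)**: the `invJ` are jointly onto the `p`-primary part -/
theorem invJ_surj (D : ∀ q : ↥S, CompDatum p S V hV q)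
    (t : Places D → QZ) (n : ℕ) (ht : ∀ w, (p ^ n) • t w = 0) :
    ∃ x : (restrictLevels (globalLevels S) V hV).H2 (Rep.res V.subtype (JSp S)),
      (p ^ n) • x = 0 ∧ ∀ w, invJ D w x = t w := by
  have hb : ∀ (q : ↥S) (w : (D q).W), ∃ b : (D q).Y w,
      (p ^ n) • b = 0 ∧ (D q).inv w b = t ⟨q, w⟩ := fun q w =>
    (D q).inv_surj w (t ⟨q, w⟩) n (ht ⟨q, w⟩)
  choose b hb0 hbt using hb
  have hx : ∀ q : ↥S, ∃ x : (restrictLevels (globalLevels S) V hV).H2
        (Rep.res V.subtype (JSq S ((q : Nat.Primes) : ℕ))),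
      (p ^ n) • x = 0 ∧ ∀ w, (D q).loc w x = b q w := fun q =>
    (D q).loc_surj (b q) n (hb0 q)
  choose x hx0 hxb using hx
  obtain ⟨y, hy⟩ := exists_prH2_eq S V hV x
  refine ⟨y, ?_, ?_⟩
  · refine eq_zero_of_prH2 S V hV _ (fun q => ?_)
    rw [map_nsmul, hy q, hx0 q]
  · rintro ⟨q, w⟩
    rw [invJ_apply, hy q, hxb q w, hbt q w]

/-- **(L-b) ASSEMBLY: the limit formation datum over `V` from its components.**

* `D q` : the `q`-component of the `J`-side (`CompDatum`), for every `q ∈ S`;
* `w₀` : one place (the fixed field of `V` has a place above `S`);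
* `invC`, `hinjC`, `hrec` : the global invariant on `H²(V, C'_S)`, injective on `p`-primary
  classes, with the sum formula against the local invariants;
* `hH1C` : `H¹(V, C'_S)(p) = 0`;  `hH3J q` : `H³(V, J_{S,q})[p] = 0`. -/
theorem hasFormationDatum_of_components
    (D : ∀ q : ↥S, CompDatum p S V hV q) (w₀ : Places D)
    (invC : (restrictLevels (globalLevels S) V hV).H2 (Rep.res V.subtype (CSp S)) →+ QZ)
    (hinjC : ∀ (y : (restrictLevels (globalLevels S) V hV).H2 (Rep.res V.subtype (CSp S)))
      (n : ℕ), (p ^ n) • y = 0 → invC y = 0 → y = 0)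
    (hrec : ∀ x : (restrictLevels (globalLevels S) V hV).H2 (Rep.res V.subtype (JSp S)),
      invC ((restrictLevels (globalLevels S) V hV).H2map
        (LevelStr.resLin V.subtype (πCS S).hom.toLinearMap)
        ((LevelStr.isEquivariant_hom (πCS S)).res V.subtype) x) =
      ∑ q : ↥S, ∑ w : (D q).W, (D q).inv w ((D q).loc w (prH2 S V hV q x)))
    (hH1C : ∀ (y : (restrictLevels (globalLevels S) V hV).H1 (Rep.res V.subtype (CSp S)))
      (n : ℕ), (p ^ n) • y = 0 → y = 0)
    (hH3J : ∀ q : ↥S, H3TorsVan (restrictLevels (globalLevels S) V hV) p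
      (resSub (canρ (JSq S ((q : Nat.Primes) : ℕ))) V)) :
    HasFormationDatum p S V hV := by
  refine ⟨Places D, inferInstance, ⟨w₀⟩, invJ D, invC, invJ_inj D, invJ_surj D, hinjC, ?_, hH1C,
    ?_⟩
  · intro x
    rw [hrec x, Fintype.sum_sigma]
    rfl
  · exact Pieces.h3TorsVan_piObj_resSub (globalLevels S) p
      (fun q : ↥S => JSq S ((q : Nat.Primes) : ℕ)) V hV hH3J

/-- **(P1) from component data at every open `V` fixing `μ_p`.** -/
theorem globalRightExact_of_components (hpS : pPrime p ∈ S)
    (h : ∀ (V : Subgroup GQ) (hV : IsOpenSub (globalLevels S) V), Global.MuTriv p V →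
      ∃ (D : ∀ q : ↥S, CompDatum p S V hV q) (w₀ : Places D)
        (invC : (restrictLevels (globalLevels S) V hV).H2 (Rep.res V.subtype (CSp S)) →+ QZ),
        (∀ (y : (restrictLevels (globalLevels S) V hV).H2 (Rep.res V.subtype (CSp S)))
          (n : ℕ), (p ^ n) • y = 0 → invC y = 0 → y = 0) ∧
        (∀ x : (restrictLevels (globalLevels S) V hV).H2 (Rep.res V.subtype (JSp S)),
          invC ((restrictLevels (globalLevels S) V hV).H2map
            (LevelStr.resLin V.subtype (πCS S).hom.toLinearMap)
            ((LevelStr.isEquivariant_hom (πCS S)).res V.subtype) x) =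
          ∑ q : ↥S, ∑ w : (D q).W, (D q).inv w ((D q).loc w (prH2 S V hV q x))) ∧
        (∀ (y : (restrictLevels (globalLevels S) V hV).H1 (Rep.res V.subtype (CSp S)))
          (n : ℕ), (p ^ n) • y = 0 → y = 0) ∧
        (∀ q : ↥S, H3TorsVan (restrictLevels (globalLevels S) V hV) p
          (resSub (canρ (JSq S ((q : Nat.Primes) : ℕ))) V))) :
    Contract34.GlobalRightExact p S :=
  globalRightExact_of_datum hpS (fun V hV hmu => by
    obtain ⟨D, w₀, invC, hinjC, hrec, hH1C, hH3J⟩ := h V hV hmu
    exact hasFormationDatum_of_components D w₀ invC hinjC hrec hH1C hH3J)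

end Fermat.Agent.S55.P1Lim62.Datum
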