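/-
S55 / (L-b) P1 limit half (helper62), part 2: bridge between the two vocabularies for level
cohomology: `Profin15.LevelStr.H1/H2` of a `Rep ℤ G` (helper15, used by CS79 / LevelLES13 /
LimDesc99 / S1_67) and helper63's `CDArith63.H2 𝒰 ρ` / cochain statements on a
`Representation ℤ G A` (used by `CDArith63.Formation`).
-/
import Fermat.Agent.S55.CDArith63.Torsion
import Fermat.Agent.S55.LevelLES13.Functor
import Fermat.Agent.S55.CS79.Primary
import Fermat.Agent.S55.S1_67.Level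

set_option autoImplicit false
set_option linter.unusedSectionVars false

open CategoryTheory groupCohomology

namespace Fermat.Agent.S55.P1Lim62.Bridge

open Fermat.Agent.S55.Profin15 Fermat.Agent.S55.CDArith63 Fermat.Agent.S55.LevelLES13

variable {G : Type} [Group G] (𝒰 : LevelStr G) (A : Rep.{0} ℤ G)

/-! ### the `ℤ`-module instance trap

For a variable `A : Rep ℤ G` the module structure `A.hV2` is not syntactically
`AddCommGroup.toIntModule`, which is the instance helper63's `Representation ℤ G E` statements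
are elaborated with.  `intRho A` is the same action re-typed. -/

/-- the action of `A : Rep ℤ G` as a `Representation ℤ G A` for the canonical `ℤ`-module
structure `AddCommGroup.toIntModule` -/
def intRho : @Representation ℤ G A _ _ _ (AddCommGroup.toIntModule A) where
  toFun g := (A.ρ g).toAddMonoidHom.toIntLinearMap
  map_one' := by
    apply LinearMap.ext
    intro x
    show A.ρ 1 x = x
    rw [map_one]; rfl
  map_mul' g h := by
    apply LinearMap.ext
    intro x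
    show A.ρ (g * h) x = A.ρ g (A.ρ h x)
    rw [map_mul]; rfl

@[simp] theorem intRho_apply (g : G) (x : A) : intRho A g x = A.ρ g x := rfl

/-! ### cochains -/

theorem d01_eq (x : A) : d01 (intRho A) x = (d₀₁ A).hom x := by
  funext g
  simp [d01_apply, d₀₁_hom_apply]

theorem d12_eq (a : G → A) : d12 (intRho A) a = (d₁₂ A).hom a := by
  funext ⟨g, h⟩
  simp [d12_apply, d₁₂_hom_apply]

theorem d12_eq_zero_iff (a : G → A) : d12 (intRho A) a = 0 ↔ a ∈ cocycles₁ A := by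
  rw [mem_cocycles₁_def]
  constructor
  · intro h g k
    have := congrFun h (g, k)
    rw [d12_apply, Pi.zero_apply, intRho_apply] at this
    exact this
  · intro h
    funext ⟨g, k⟩
    rw [d12_apply, Pi.zero_apply, intRho_apply]
    exact h g k

theorem d23_eq_zero_iff (f : G × G → A) : d23 (intRho A) f = 0 ↔ f ∈ cocycles₂ A := by
  rw [mem_cocycles₂_iff]
  constructor
  · intro h g h' j
    have := congrFun h (g, h', j)
    rw [d23_apply, Pi.zero_apply, sub_eq_zero] at this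
    simp only [intRho_apply] at this
    rw [← this]
    abel
  · intro h
    funext ⟨g, h', j⟩
    have := h g h' j
    rw [d23_apply, Pi.zero_apply, sub_eq_zero]
    simp only [intRho_apply]
    calc A.ρ g (f (h', j)) - f (g * h', j) + f (g, h' * j)
        = (A.ρ g (f (h', j)) + f (g, h' * j)) - f (g * h', j) := by abel
      _ = (f (g * h', j) + f (g, h')) - f (g * h', j) := by rw [this]
      _ = f (g, h') := by abel

theorem mem_Z2_iff_mem_Z₂ (c : G × G → A) : c ∈ Z2 𝒰 (intRho A) ↔ c ∈ 𝒰.Z₂ A := by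
  rw [mem_Z2_iff, LevelStr.mem_Z₂_iff, d23_eq_zero_iff]
  exact and_comm

theorem mem_B2_iff_mem_B₂ (c : G × G → A) : c ∈ B2 𝒰 (intRho A) ↔ c ∈ 𝒰.B₂ A := by
  rw [mem_B2_iff, LevelStr.mem_B₂_iff]
  constructor
  · rintro ⟨a, ha, rfl⟩
    exact ⟨a, ha, (d12_eq A a).symm⟩
  · rintro ⟨a, ha, rfl⟩
    exact ⟨a, ha, d12_eq A a⟩

theorem isSmoothRep_iff : IsSmoothRep 𝒰 (intRho A) ↔ 𝒰.IsSmooth A := Iff.rfl

/-! ### `H²` -/

/-- cast of cocycles -/
def castZ : ↥(Z2 𝒰 (intRho A)) →+ ↥(𝒰.Z₂ A) where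
  toFun c := ⟨c.1, (mem_Z2_iff_mem_Z₂ 𝒰 A c.1).1 c.2⟩
  map_zero' := rfl
  map_add' _ _ := rfl

@[simp] theorem coe_castZ (c : ↥(Z2 𝒰 (intRho A))) : ((castZ 𝒰 A c : ↥(𝒰.Z₂ A)) : G × G → A) = c.1 := rfl

/-- helper63's level `H²` to helper15's level `H²` (identity on cocycles). -/
noncomputable def fromCD : H2 𝒰 (intRho A) →+ 𝒰.H2 A :=
  QuotientAddGroup.lift _ ((𝒰.H2π A).toAddMonoidHom.comp (castZ 𝒰 A)) (by
    intro c hc
    rw [AddSubgroup.mem_addSubgroupOf] at hc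
    show 𝒰.H2π A (castZ 𝒰 A c) = 0
    rw [LevelStr.H2π_eq_zero_iff]
    exact (mem_B2_iff_mem_B₂ 𝒰 A _).1 hc)

theorem fromCD_mk (c : ↥(Z2 𝒰 (intRho A))) : fromCD 𝒰 A (H2mk 𝒰 (intRho A) c) = 𝒰.H2π A (castZ 𝒰 A c) := rfl

theorem fromCD_injective : Function.Injective (fromCD 𝒰 A) := by
  rw [injective_iff_map_eq_zero]
  intro x hx
  obtain ⟨c, rfl⟩ := H2mk_surjective x
  rw [fromCD_mk, LevelStr.H2π_eq_zero_iff] at hx
  rw [H2mk_eq_zero_iff]
  exact (mem_B2_iff_mem_B₂ 𝒰 A _).2 hx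

theorem fromCD_surjective : Function.Surjective (fromCD 𝒰 A) := by
  intro y
  obtain ⟨c, rfl⟩ := H2π_surjective 𝒰 A y
  exact ⟨H2mk 𝒰 (intRho A) ⟨c.1, (mem_Z2_iff_mem_Z₂ 𝒰 A c.1).2 c.2⟩, rfl⟩

theorem fromCD_nsmul (n : ℕ) (x : H2 𝒰 (intRho A)) : fromCD 𝒰 A (n • x) = n • fromCD 𝒰 A x :=
  map_nsmul _ _ _

theorem fromCD_eq_zero_iff (x : H2 𝒰 (intRho A)) : fromCD 𝒰 A x = 0 ↔ x = 0 :=
  ⟨fun h => fromCD_injective 𝒰 A (by rw [h, map_zero]), fun h => by rw [h, map_zero]⟩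

/-- the additive map underlying a morphism of `Rep`s -/
def homAdd {B : Rep.{0} ℤ G} (f : A ⟶ B) : A →+ B where
  toFun a := f.hom a
  map_zero' := map_zero f.hom
  map_add' := map_add f.hom

variable {A}

@[simp] theorem homAdd_apply {B : Rep.{0} ℤ G} (f : A ⟶ B) (a : A) : homAdd A f a = f.hom a := rfl

theorem homAdd_equivariant {B : Rep.{0} ℤ G} (f : A ⟶ B) (g : G) (a : A) :
    homAdd A f (intRho A g a) = intRho B g (homAdd A f a) :=
  Rep.hom_comm_apply f g a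

/-- naturality: helper63's `mapH2` of a morphism of `Rep`s is helper13's `H2map`. -/
theorem fromCD_mapH2 {B : Rep.{0} ℤ G} (f : A ⟶ B) (x : H2 𝒰 (intRho A)) :
    fromCD 𝒰 B (mapH2 𝒰 (intRho A) (intRho B) (homAdd A f) (homAdd_equivariant f) x) =
      H2map 𝒰 f (fromCD 𝒰 A x) := by
  obtain ⟨c, rfl⟩ := H2mk_surjective x
  rfl

/-! ### `H¹`: the `p`-primary vanishing in cochain form -/

/-- helper79's `H1PrimaryVanishes` gives the hypothesis `hH1C'` of
`FormationP.h2DivBy_of_formation_primary`. -/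
theorem exists_coprime_nsmul_eq_d01 {p : ℕ} (hp : p.Prime) (C : Rep.{0} ℤ G)
    (hvan : Fermat.Agent.S55.CS79.Primary.H1PrimaryVanishes 𝒰 p C)
    (a : G → C) (ha : 𝒰.IsConst₁ a) (hda : d12 (intRho C) a = 0) :
    ∃ m : ℕ, Nat.Coprime m p ∧ ∃ γ : C, d01 (intRho C) γ = m • a := by
  have haZ : a ∈ 𝒰.Z₁ C := ⟨(d12_eq_zero_iff C a).1 hda, ha⟩
  obtain ⟨n, hn0, hn⟩ := Fermat.Agent.S55.S1_67.Level.H1_torsion 𝒰 (𝒰.H1π C ⟨a, haZ⟩)
  obtain ⟨j, m, hm, rfl⟩ := Nat.exists_eq_pow_mul_and_not_dvd hn0.ne' p hp.ne_one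
  have h1 : p ^ j • (m • 𝒰.H1π C ⟨a, haZ⟩) = 0 := by
    rw [← mul_smul]; exact hn
  have h2 : m • 𝒰.H1π C ⟨a, haZ⟩ = 0 := hvan _ ⟨j, h1⟩
  rw [← map_nsmul, LevelStr.H1π_eq_zero_iff] at h2
  obtain ⟨γ, hγ⟩ := h2
  refine ⟨m, ((Nat.Prime.coprime_iff_not_dvd hp).2 hm).symm, γ, ?_⟩
  rw [d01_eq]
  exact hγ

end Fermat.Agent.S55.P1Lim62.Bridge
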