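/-
S55 / (L-b) P1 limit half (helper62), part 1: the `p`-PRIMARY form of helper63's
`CDArith63.h2DivBy_of_formation`.

For `C = J_S/E_S` the hypothesis `hH1C` ("level `H¹(C) = 0`") of `CDArith63.Formation` is only
available `p`-primarily (only the `p`-part of the `S`-class group is known to capitulate in `ℚ_S`
without the principal ideal theorem).  The statement survives with
`hH1C' : every level 1-cocycle of C is killed, modulo coboundaries, by an integer prime to p`.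
-/
import Fermat.Agent.S55.CDArith63.Torsion

set_option autoImplicit false
set_option linter.unusedSectionVars false
set_option linter.unusedVariables false

universe u

namespace Fermat.Agent.S55.P1Lim62.FormationP

open Fermat.Agent.S55.Profin15 Fermat.Agent.S55.CDArith63

variable {G : Type u} [Group G] (𝒰 : LevelStr G)

section Formation

variable {p : ℕ} [hp : Fact p.Prime]
  {E J C : Type*} [AddCommGroup E] [AddCommGroup J] [AddCommGroup C]
  (ρE : Representation ℤ G E) (ρJ : Representation ℤ G J) (ρC : Representation ℤ G C)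
  (i : E →+ J) (π : J →+ C)
  (hiρ : ∀ g e, i (ρE g e) = ρJ g (i e)) (hπρ : ∀ g x, π (ρJ g x) = ρC g (π x))
  (hi : Function.Injective i) (hπ : Function.Surjective π) (hπi : ∀ e, π (i e) = 0)
  (hex : ∀ x, π x = 0 → x ∈ Set.range i)
  (hsmJ : IsSmoothRep 𝒰 ρJ)
  {W : Type*} [Fintype W] (w₀ : W) {T : Type*} [AddCommGroup T]
  (invJ : W → (H2 𝒰 ρJ →+ T)) (invC : H2 𝒰 ρC →+ T)
  (hinj : ∀ (x : H2 𝒰 ρJ) (n : ℕ), (p ^ n) • x = 0 → (∀ w, invJ w x = 0) → x = 0)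
  (hsurj : ∀ (t : W → T) (n : ℕ), (∀ w, (p ^ n) • t w = 0) →
    ∃ x : H2 𝒰 ρJ, (p ^ n) • x = 0 ∧ ∀ w, invJ w x = t w)
  (hTdiv : ∀ (t : T) (n : ℕ), (p ^ n) • t = 0 → ∃ t', p • t' = t ∧ (p ^ (n + 1)) • t' = 0)
  (hinjC : ∀ (y : H2 𝒰 ρC) (n : ℕ), (p ^ n) • y = 0 → invC y = 0 → y = 0)
  (hcompat : ∀ x : H2 𝒰 ρJ, invC (mapH2 𝒰 ρJ ρC π hπρ x) = ∑ w, invJ w x)
  (hH1C' : ∀ a : G → C, 𝒰.IsConst₁ a → d12 ρC a = 0 →
    ∃ m : ℕ, Nat.Coprime m p ∧ ∃ γ : C, d01 ρC γ = m • a)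

include hi hπ hπi hex hsmJ w₀ hinj hsurj hTdiv hinjC hcompat hH1C' hiρ in
/-- `H²(E)/p = 0`, with the `p`-primary form of `H¹(C) = 0`. -/
theorem h2DivBy_of_formation_primary : H2DivBy 𝒰 p ρE := by
  intro c hc hdc
  have hcJ : i ∘ c ∈ Z2 𝒰 ρJ := comp_mem_Z2 ρE ρJ i hiρ ⟨hc, hdc⟩
  have hφ0 : mapH2 𝒰 ρJ ρC π hπρ (H2mk 𝒰 ρJ ⟨i ∘ c, hcJ⟩) = 0 := by
    rw [mapH2_mk]
    have : mapZ2 𝒰 ρJ ρC π hπρ ⟨i ∘ c, hcJ⟩ = 0 := by
      apply Subtype.ext
      funext x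
      simp [hπi]
    rw [this, map_zero]
  obtain ⟨z, hz0, hpz⟩ := exists_div_of_mem_ker (mapH2 𝒰 ρJ ρC π hπρ) invJ invC w₀ H2_torsion hinj
    hsurj hTdiv hinjC hcompat _ hφ0
  obtain ⟨zJ, rfl⟩ := H2mk_surjective z
  have hB1 : π ∘ (zJ : G × G → J) ∈ B2 𝒰 ρC := by
    rw [mapH2_mk] at hz0
    have := (H2mk_eq_zero_iff _).1 hz0
    simpa using this
  have hB2 : p • (zJ : G × G → J) - i ∘ c ∈ B2 𝒰 ρJ := by
    have h0 : H2mk 𝒰 ρJ (p • zJ - ⟨i ∘ c, hcJ⟩) = 0 := by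
      rw [map_sub, map_nsmul, hpz, sub_self]
    have := (H2mk_eq_zero_iff _).1 h0
    simpa using this
  obtain ⟨aC, haC, hdaC⟩ := hB1
  obtain ⟨aJ, haJ, hπaJ⟩ := exists_lift₁ hπ haC
  -- correct `zJ` so that it comes from `E`
  set zJ' : G × G → J := (zJ : G × G → J) - d12 ρJ aJ with hzJ'
  have hzJ'c : 𝒰.IsConst₂ zJ' := isConst₂_sub zJ.2.1 (hsmJ.isConst₂_d12 haJ)
  have hπz : ∀ x, π (zJ' x) = 0 := by
    intro x
    have h1 : π ∘ zJ' = π ∘ (zJ : G × G → J) - d12 ρC (π ∘ aJ) := by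
      rw [← map_d12 ρJ ρC π hπρ aJ]
      funext y
      simp [hzJ']
    have h2 : π ∘ zJ' = 0 := by rw [h1, hπaJ, hdaC, sub_self]
    exact congrFun h2 x
  obtain ⟨c', hc', hic'⟩ := exists_pull₂ (i := (i : E → J)) hzJ'c (fun x => hex _ (hπz x))
  have hdc' : d23 ρE c' = 0 := by
    have hkey : i ∘ d23 ρE c' = 0 := by
      rw [map_d23 ρE ρJ i hiρ c', hic', hzJ', d23_sub, d23_d12, zJ.2.2, sub_zero]
    funext x
    have := congrFun hkey x
    simp only [Function.comp_apply, Pi.zero_apply] at this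
    exact hi (by rw [this]; simp)
  -- the difference `p • c' - c` is a coboundary in `J`
  obtain ⟨αJ0, hαJ0, hdαJ0⟩ := hB2
  set αJ : G → J := αJ0 - p • aJ with hαJ
  have hαJc : 𝒰.IsConst₁ αJ := isConst₁_sub hαJ0 (isConst₁_nsmul p haJ)
  have hdαJ : d12 ρJ αJ = i ∘ (p • c' - c) := by
    rw [hαJ, d12_sub, d12_nsmul, hdαJ0]
    have : i ∘ (p • c' - c) = p • (i ∘ c') - i ∘ c := by
      funext x
      simp
    rw [this, hic', hzJ', smul_sub]
    abel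
  have hπα : d12 ρC (π ∘ αJ) = 0 := by
    rw [← map_d12 ρJ ρC π hπρ αJ, hdαJ]
    funext x
    simp [hπi]
  -- `p`-primary form of `H¹(C) = 0`
  obtain ⟨m, hm, γ, hγ⟩ := hH1C' (π ∘ αJ) (hαJc.comp π) hπα
  obtain ⟨γJ, hγJ⟩ := hπ γ
  set αJ' : G → J := m • αJ - d01 ρJ γJ with hαJ'
  have hαJ'c : 𝒰.IsConst₁ αJ' := isConst₁_sub (isConst₁_nsmul m hαJc) (hsmJ.isConst₁_d01 γJ)
  have hπα' : ∀ g, π (αJ' g) = 0 := by
    intro g
    have h1 : π ∘ αJ' = m • (π ∘ αJ) - d01 ρC (π γJ) := by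
      rw [← map_d01 ρJ ρC π hπρ γJ]
      funext y
      simp [hαJ']
    have h2 : π ∘ αJ' = 0 := by rw [h1, hγJ, hγ, sub_self]
    exact congrFun h2 g
  obtain ⟨αE, hαE, hiαE⟩ := exists_pull₁ (i := (i : E → J)) hαJ'c (fun g => hex _ (hπα' g))
  have hdαE : d12 ρE αE = m • (p • c' - c) := by
    have hkey : i ∘ d12 ρE αE = i ∘ (m • (p • c' - c)) := by
      rw [map_d12 ρE ρJ i hiρ αE, hiαE, hαJ', d12_sub, d12_d01, sub_zero, d12_nsmul, hdαJ]
      funext x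
      simp
    funext x
    exact hi (congrFun hkey x)
  -- Bezout
  have hb : (m : ℤ) * Int.gcdA m p + (p : ℤ) * Int.gcdB m p = 1 := by
    have := Int.gcd_eq_gcd_ab (m : ℤ) (p : ℤ)
    rw [Int.gcd_natCast_natCast, hm] at this
    exact_mod_cast this.symm
  set u := Int.gcdA m p
  set v := Int.gcdB m p
  refine ⟨(u * m) • c' + v • c, -(u • αE), ?_, ?_, ?_, ?_⟩
  · exact (isConst₂_zsmul _ hc').add (isConst₂_zsmul _ hc)
  · rw [d23_add, d23_zsmul, d23_zsmul, hdc', hdc, smul_zero, smul_zero, add_zero]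
  · exact (isConst₁_zsmul u hαE).comp (fun x => -x)
  · have h1 : d12 ρE (-(u • αE)) = -(u • (m • (p • c' - c))) := by
      have := d12_sub ρE 0 (u • αE)
      rw [zero_sub, d12_zero, zero_sub, d12_zsmul, hdαE] at this
      exact this
    rw [h1]
    funext x
    simp only [Pi.add_apply, Pi.smul_apply, Pi.neg_apply, Pi.sub_apply]
    have hb' : (v * (p : ℤ)) = 1 - u * m := by linarith
    have e1 : p • ((u * (m : ℤ)) • c' x + v • c x) =
        ((p : ℤ) * (u * m)) • c' x + (v * (p : ℤ)) • c x := by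
      module
    have e2 : u • m • (p • c' x - c x) = ((p : ℤ) * (u * m)) • c' x - (u * m) • c x := by
      module
    rw [e1, e2, hb', sub_smul, one_smul]
    abel

end Formation

end Fermat.Agent.S55.P1Lim62.FormationP
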