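/-
S55 / (L-b) P1 limit half (helper62), part 3: the two statements `H3TorsVan`, `H2DivBy` on the
unit module `E = ker (dI : K → I)` from the class-formation statements IN THE LIMIT, stated in the
`Profin15` vocabulary on helper79's abstract framework `CS79.ClassSeq`
(`K ⟶ J` diagonal, `K ⟶ I` divisor, `classMod = coker (K → J × I)`, `unitQuot = J / E`).

Inputs (all about ONE group `Γ` with a level structure, e.g. `Γ = ↥V`, `V` open in `G_ℚ`):
* class group: torsion, `p`-capitulation (`htors`, `hItf`, `hroot`)   [helper79 36-D3 / helper72];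
* `hH1C`  : `p`-primary part of level `H¹(classMod)` vanishes           [33 in the limit];
* `hH3J`  : level `H³(J) = 0`                                           [36b + LevelBridge];
* `invJ w`, `hinj`, `hsurj` : local invariants on level `H²(J)`         [52 (H2) + 22 + 34z];
* `invC`, `hinjC`, `hcompat` : global invariant on level `H²(classMod)` [35-LIM].
-/
import Fermat.Agent.S55.P1Lim62.FormationP
import Fermat.Agent.S55.P1Lim62.Bridge
import Fermat.Agent.S55.CS79.ClassSeq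

set_option autoImplicit false
set_option linter.unusedSectionVars false
set_option linter.unusedVariables false

open CategoryTheory groupCohomology

namespace Fermat.Agent.S55.P1Lim62.Abstract

open Fermat.Agent.S55.Profin15 Fermat.Agent.S55.CDArith63 Fermat.Agent.S55.LevelLES13
open Fermat.Agent.S55.CS79.ClassSeq Fermat.Agent.S55.CS79.Primary
open Fermat.Agent.S55.P1Lim62.Bridge Fermat.Agent.S55.P1Lim62.FormationP

variable {Γ : Type} [Group Γ] (𝒰 : LevelStr Γ) {K J I : Rep.{0} ℤ Γ} (dJ : K ⟶ J) (dI : K ⟶ I)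

/-- `J ⟶ coker (K → J × I)`, `j ↦ [(j, 0)]` -/
noncomputable def toClass : J ⟶ classMod dJ dI := unitQuotProj dJ dI ≫ inclHom dJ dI

theorem toClass_apply (j : J) :
    (toClass dJ dI).hom j = (inclHom dJ dI).hom ((unitQuotProj dJ dI).hom j) := rfl

variable {p : ℕ} [hp : Fact p.Prime]

/-- **(L-b), abstract form.** -/
theorem h3TorsVan_and_h2DivBy
    (hJ : 𝒰.IsSmooth J) (hI : 𝒰.IsSmooth I) (hdJ : Function.Injective dJ.hom)
    (htors : ∀ a : I, ∃ m : ℕ, 0 < m ∧ ∃ α : K, dI.hom α = m • a)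
    (hItf : ∀ a : I, p • a = 0 → a = 0)
    (hroot : ∀ α : K, (∃ a : I, dI.hom α = p • a) → ∃ β : K, p • β = α)
    (hH1C : H1PrimaryVanishes 𝒰 p (classMod dJ dI))
    (hH3J : H3Van 𝒰 (intRho J))
    {W : Type*} [Fintype W] (w₀ : W) {T : Type*} [AddCommGroup T]
    (invJ : W → (𝒰.H2 J →+ T)) (invC : 𝒰.H2 (classMod dJ dI) →+ T)
    (hinj : ∀ (x : 𝒰.H2 J) (n : ℕ), p ^ n • x = 0 → (∀ w, invJ w x = 0) → x = 0)
    (hsurj : ∀ (t : W → T) (n : ℕ), (∀ w, p ^ n • t w = 0) →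
      ∃ x : 𝒰.H2 J, p ^ n • x = 0 ∧ ∀ w, invJ w x = t w)
    (hTdiv : ∀ (t : T) (n : ℕ), p ^ n • t = 0 → ∃ t', p • t' = t ∧ p ^ (n + 1) • t' = 0)
    (hinjC : ∀ (y : 𝒰.H2 (classMod dJ dI)) (n : ℕ), p ^ n • y = 0 → invC y = 0 → y = 0)
    (hcompat : ∀ x : 𝒰.H2 J, invC (H2map 𝒰 (toClass dJ dI) x) = ∑ w, invJ w x) :
    H3TorsVan 𝒰 p (intRho (unitsRep dI)) ∧ H2DivBy 𝒰 p (intRho (unitsRep dI)) := by
  have hse := shortExact_units dJ dI hdJ
  -- the data of `CDArith63.Formation`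
  set i : unitsRep dI →+ J := homAdd _ (unitsHom dJ dI) with hi_def
  set π : J →+ unitQuot dJ dI := homAdd _ (unitQuotProj dJ dI) with hπ_def
  have hiρ : ∀ g e, i (intRho (unitsRep dI) g e) = intRho J g (i e) :=
    homAdd_equivariant (unitsHom dJ dI)
  have hπρ : ∀ g x, π (intRho J g x) = intRho (unitQuot dJ dI) g (π x) :=
    homAdd_equivariant (unitQuotProj dJ dI)
  have hi : Function.Injective i := hse.inj
  have hπ : Function.Surjective π := hse.surj
  have hπi : ∀ e, π (i e) = 0 := fun e => (hse.exact _).2 ⟨e, rfl⟩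
  have hex : ∀ x, π x = 0 → x ∈ Set.range i := fun x hx => (hse.exact x).1 hx
  have hsmJ : IsSmoothRep 𝒰 (intRho J) := hJ
  -- invariants in helper63's vocabulary
  set invJ' : W → (H2 𝒰 (intRho J) →+ T) := fun w => (invJ w).comp (fromCD 𝒰 J) with hinvJ'
  set invC' : H2 𝒰 (intRho (unitQuot dJ dI)) →+ T :=
    (invC.comp (H2map 𝒰 (inclHom dJ dI)).toAddMonoidHom).comp (fromCD 𝒰 (unitQuot dJ dI))
    with hinvC'
  have hinj' : ∀ (x : H2 𝒰 (intRho J)) (n : ℕ), (p ^ n) • x = 0 → (∀ w, invJ' w x = 0) →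
      x = 0 := by
    intro x n hx hw
    apply fromCD_injective 𝒰 J
    rw [map_zero]
    exact hinj _ n (by rw [← map_nsmul, hx, map_zero]) hw
  have hsurj' : ∀ (t : W → T) (n : ℕ), (∀ w, (p ^ n) • t w = 0) →
      ∃ x : H2 𝒰 (intRho J), (p ^ n) • x = 0 ∧ ∀ w, invJ' w x = t w := by
    intro t n ht
    obtain ⟨y, hy, hyt⟩ := hsurj t n ht
    obtain ⟨x, rfl⟩ := fromCD_surjective 𝒰 J y
    refine ⟨x, ?_, hyt⟩
    apply fromCD_injective 𝒰 J
    rw [map_nsmul, hy, map_zero]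
  have hinjC' : ∀ (y : H2 𝒰 (intRho (unitQuot dJ dI))) (n : ℕ), (p ^ n) • y = 0 →
      invC' y = 0 → y = 0 := by
    intro y n hy hy0
    apply fromCD_injective 𝒰 (unitQuot dJ dI)
    rw [map_zero]
    have h1 : p ^ n • fromCD 𝒰 (unitQuot dJ dI) y = 0 := by
      rw [← map_nsmul, hy, map_zero]
    apply H2map_inclHom_injective_on_primary dJ dI hJ hI hp.out htors hItf hroot _ ⟨n, h1⟩
    apply hinjC _ n
    · rw [← map_nsmul, h1, map_zero]
    · exact hy0
  have hcompat' : ∀ x : H2 𝒰 (intRho J),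
      invC' (mapH2 𝒰 (intRho J) (intRho (unitQuot dJ dI)) π hπρ x) = ∑ w, invJ' w x := by
    intro x
    have h1 := fromCD_mapH2 𝒰 (unitQuotProj dJ dI) x
    show invC (H2map 𝒰 (inclHom dJ dI) (fromCD 𝒰 (unitQuot dJ dI) _)) = _
    rw [h1, ← H2map_comp]
    exact hcompat _
  have hH1C' : ∀ a : Γ → unitQuot dJ dI, 𝒰.IsConst₁ a →
      d12 (intRho (unitQuot dJ dI)) a = 0 →
      ∃ m : ℕ, Nat.Coprime m p ∧ ∃ γ : unitQuot dJ dI, d01 (intRho (unitQuot dJ dI)) γ = m • a :=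
    exists_coprime_nsmul_eq_d01 𝒰 hp.out _
      (h1PrimaryVanishes_unitQuot dJ dI hJ hI hp.out htors hItf hroot hH1C)
  exact ⟨h3TorsVan_of_formation 𝒰 (intRho (unitsRep dI)) (intRho J) (intRho (unitQuot dJ dI))
      i π hiρ hπρ hi hπ hπi hex hsmJ w₀ invJ' invC' H2_torsion hsurj' hinjC' hcompat' hH3J,
    h2DivBy_of_formation_primary 𝒰 (intRho (unitsRep dI)) (intRho J) (intRho (unitQuot dJ dI))
      i π hiρ hπρ hi hπ hπi hex hsmJ w₀ invJ' invC' hinj' hsurj' hTdiv hinjC' hcompat' hH1C'⟩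

end Fermat.Agent.S55.P1Lim62.Abstract
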