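/-
S55 / (L-b) P1 limit half (helper62), part 7: the P1 endpoint with the two LOCAL named inputs
discharged:

* `LocalPres S`      ⇐ helper28 `LocInv28.Final.presCochain` (22b CLOSED, unconditional);
* `TowerSplit p S q` ⇐ helper46 `CycloTower46.TowerSplit.towerSplit_forall` (unconditional).

So `Contract34.GlobalRightExact p S` (literal plug P1) ⇐
* `Adapt77.Conj5.SecondIneqMu S p` (32c-B, the second inequality), and
* for every open `V` fixing `μ_p`: a TOTAL `invC` on the level `H²(V, C_S)` of the true class
  module `C_S = CSl S`, injective on `p`-primary classes, with the sum formula against the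
  UNCONDITIONAL local invariants `invJu S V hV w = inv_w ∘ loc_w` (35 + L-d).
-/
import Fermat.Agent.S55.P1Lim62.Endpoint
import Fermat.Agent.S55.LocInv28.Final
import Fermat.Agent.S55.CycloTower46.TowerSplit

set_option autoImplicit false
set_option linter.unusedSectionVars false
set_option linter.unusedVariables false

open CategoryTheory groupCohomology ExtCitation

namespace Fermat.Agent.S55.P1Lim62.Final

open Fermat.Agent.S55.Profin15 Fermat.Agent.S55.Profin15.LevelStr Fermat.Agent.S55.CD3
open Fermat.Agent.S55.Idele73.Basic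
open Fermat.Agent.S55.GlobalMod94.JS Fermat.Agent.S55.GlobalMod94.OpenJS
open Fermat.Agent.S55.QZ33 Fermat.Agent.S55.ClassData72
open Fermat.Agent.S55.S1Limit41.Global Fermat.Agent.S55.Adapt77.Conj5
open Fermat.Agent.S55.P1Lim62.ClassDatum Fermat.Agent.S55.P1Lim62.Endpoint

/-- **22b is closed**: `LocalPres S` holds unconditionally (helper28 `LocInv28.Final`). -/
theorem localPres (S : Finset Nat.Primes) : LocalPres S :=
  fun _ K _ => LocInv28.Final.presCochain K

variable {p : ℕ} [hp : Fact p.Prime] (S : Finset Nat.Primes) (V : Subgroup GQ)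
  (hV : IsOpenSub (globalLevels S) V)

/-- **the UNCONDITIONAL local invariant maps on `H²(V, J_S)`**, one for each place `w` of the
fixed field of `V` above `S`: `inv_w ∘ loc_w`. -/
noncomputable abbrev invJu (w : PlaceV S V hV) :
    (restrictLevels (globalLevels S) V hV).H2 (Rep.res V.subtype (JSp S)) →+ QZ :=
  invJ S V hV (localPres S) w

/-- conjunct (1), unconditional -/
theorem invJu_inj (x : (restrictLevels (globalLevels S) V hV).H2 (Rep.res V.subtype (JSp S)))
    (h : ∀ w, invJu S V hV w x = 0) : x = 0 :=
  invJ_inj S V hV (localPres S) x h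

/-- conjunct (2), unconditional (`p ∈ S`) -/
theorem invJu_surj (hpS : pPrime p ∈ S) (t : PlaceV S V hV → QZ) (n : ℕ)
    (ht : ∀ w, (p ^ n) • t w = 0) :
    ∃ x : (restrictLevels (globalLevels S) V hV).H2 (Rep.res V.subtype (JSp S)),
      (p ^ n) • x = 0 ∧ ∀ w, invJu S V hV w x = t w :=
  invJ_surj S V hV (localPres S)
    (CycloTower46.TowerSplit.towerSplit_forall hp.out S hpS) t n ht

/-- **the limit formation datum over `V`** from the second inequality and the global invariant
on the true class module. -/
theorem hasFormationDatum (hpS : pPrime p ∈ S) (hp2 : p ≠ 2) (h32 : SecondIneqMu S p)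
    (hmu : ∀ σ ∈ V, cycloChar p σ = 1)
    (invC : (levV S V hV).H2 (Rep.res V.subtype (CSl S)) →+ QZ)
    (hinjC : ∀ (y : (levV S V hV).H2 (Rep.res V.subtype (CSl S))) (n : ℕ),
      p ^ n • y = 0 → invC y = 0 → y = 0)
    (hrecC : ∀ y : (levV S V hV).H2 (JV S V),
      invC ((levV S V hV).H2map
        (resLin (A := CSp S) (B := CSl S) V.subtype (phi S) ∘ₗ
          resLin (A := JSp S) (B := CSp S) V.subtype (πCS S).hom.toLinearMap)
        ((ideleV S V (nonempty_of_mem S hpS)).equivariant_right.comp
          (classV S V).equivariant_left) y) = ∑ w, invJu S V hV w y) :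
    CDArith63.P1Chain.HasFormationDatum p S V hV :=
  hasFormationDatum_of_named S V hV (localPres S) hpS hp2
    (CycloTower46.TowerSplit.towerSplit_forall hp.out S hpS) h32 hmu invC hinjC hrecC

/-- **(P1), literally, from the second inequality (32c-B) and the global invariant (35 + L-d).** -/
theorem globalRightExact (hpS : pPrime p ∈ S) (hp2 : p ≠ 2) (h32 : SecondIneqMu S p)
    (hC : ∀ (V : Subgroup GQ) (hV : IsOpenSub (globalLevels S) V),
      (∀ σ ∈ V, cycloChar p σ = 1) →
      ∃ invC : (levV S V hV).H2 (Rep.res V.subtype (CSl S)) →+ QZ,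
        (∀ (y : (levV S V hV).H2 (Rep.res V.subtype (CSl S))) (n : ℕ),
          p ^ n • y = 0 → invC y = 0 → y = 0) ∧
        (∀ y : (levV S V hV).H2 (JV S V),
          invC ((levV S V hV).H2map
            (resLin (A := CSp S) (B := CSl S) V.subtype (phi S) ∘ₗ
              resLin (A := JSp S) (B := CSp S) V.subtype (πCS S).hom.toLinearMap)
            ((ideleV S V (nonempty_of_mem S hpS)).equivariant_right.comp
              (classV S V).equivariant_left) y) = ∑ w, invJu S V hV w y)) :
    Contract34.GlobalRightExact p S :=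
  globalRightExact_of_named S hpS hp2 (localPres S)
    (CycloTower46.TowerSplit.towerSplit_forall hp.out S hpS) h32 hC

end Fermat.Agent.S55.P1Lim62.Final
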