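/-
S55 / (L-b) P1 limit half (helper62), part 8: the P1 endpoint in `p`-PRIMARY form.

`P1Lim62.Final.globalRightExact` asks for a TOTAL `invC` on `H²(V, C_S)` with the sum formula
for ALL classes of `H²(V, J_S)`; class field theory is only available on `p`-primary classes
(helper14's referee note: the total formula would need reciprocity at all primes).  Here the
global input is the `p`-primary one, exactly the conclusion shape of helper99's
`LimDesc99.D2.exists_invCp_V_fin` / helper91's `SCFamily.exists_invCp` (restricted to the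
`J_S`-factor):

  `invCp : primary p (H²(V, C_S)) →+ ℚ/ℤ` injective, with
  `invCp ([(·,0)]_* x) = ∑_w inv_w (loc_w x)` for `p`-primary `x ∈ H²(V, J_S)`.

Then `Contract34.GlobalRightExact p S` (literal P1) ⇐ `SecondIneqMu S p` (32c-B) + that.
The passage to total maps is helper14's `PrimaryExt14` inside helper41's
`S1Limit41.Formation.hasFormationDatum_of_class`.
-/
import Fermat.Agent.S55.P1Lim62.Final
import Fermat.Agent.S55.S1Limit41.Formation

set_option autoImplicit false
set_option linter.unusedSectionVars false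
set_option linter.unusedVariables false

open CategoryTheory groupCohomology ExtCitation

namespace Fermat.Agent.S55.P1Lim62.FinalP

open Fermat.Agent.S55.Profin15 Fermat.Agent.S55.Profin15.LevelStr Fermat.Agent.S55.CD3
open Fermat.Agent.S55.Idele73.Basic
open Fermat.Agent.S55.GlobalMod94.JS Fermat.Agent.S55.GlobalMod94.OpenJS
open Fermat.Agent.S55.QZ33 Fermat.Agent.S55.ClassData72 Fermat.Agent.S55.PrimaryExt14
open Fermat.Agent.S55.CS79.DivLimit
open Fermat.Agent.S55.S1Limit41.Global Fermat.Agent.S55.Adapt77.Conj5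
open Fermat.Agent.S55.P1Lim62.ClassDatum Fermat.Agent.S55.P1Lim62.Final

variable {p : ℕ} [hp : Fact p.Prime] (S : Finset Nat.Primes) (V : Subgroup GQ)
  (hV : IsOpenSub (globalLevels S) V)

/-- `j ↦ [(j, 0)] : J_S → C_S` -/
noncomputable abbrev aS := aLin (diagJ S) (divLim S)

theorem aS_equivariant : IsEquivariant (A := JSp S) (B := CSl S) (aS S) :=
  (classData S).equivariant_a

/-- the unconditional local invariants on the `p`-primary part of `H²(V, J_S)` -/
noncomputable def invJp (w : PlaceV S V hV) :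
    primary p ((levV S V hV).H2 (JV S V)) →+ QZ :=
  (invJu S V hV w).comp (primary p ((levV S V hV).H2 (JV S V))).subtype

theorem invJp_apply (w : PlaceV S V hV) (x : primary p ((levV S V hV).H2 (JV S V))) :
    invJp (p := p) S V hV w x = invJu S V hV w (x : (levV S V hV).H2 (JV S V)) := rfl

theorem hinjp (x : primary p ((levV S V hV).H2 (JV S V)))
    (h : ∀ w, invJp (p := p) S V hV w x = 0) : x = 0 :=
  Subtype.ext (invJu_inj S V hV (x : (levV S V hV).H2 (JV S V)) h)

theorem hsurjp (hpS : pPrime p ∈ S) (t : PlaceV S V hV → QZ) (n : ℕ)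
    (ht : ∀ w, (p ^ n) • t w = 0) :
    ∃ x : primary p ((levV S V hV).H2 (JV S V)),
      (p ^ n) • x = 0 ∧ ∀ w, invJp (p := p) S V hV w x = t w := by
  obtain ⟨x, hx0, hxt⟩ := invJu_surj S V hV hpS t n ht
  exact ⟨⟨x, ⟨n, hx0⟩⟩, Subtype.ext hx0, hxt⟩

/-- `H¹(V, C_S)(p) = 0` from the second inequality (helper77/helper79/helper1 chain) -/
theorem hH1C (hpS : pPrime p ∈ S) (hp2 : p ≠ 2) (h32 : SecondIneqMu S p)
    (hmu : ∀ σ ∈ V, cycloChar p σ = 1) :
    CS79.Primary.H1PrimaryVanishes (levV S V hV) p (Rep.res V.subtype (CSl S)) := by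
  obtain ⟨ζ, hζ⟩ : ∃ ζ : Qbar, IsPrimitiveRoot ζ p :=
    HasEnoughRootsOfUnity.exists_primitiveRoot Qbar p
  have hS : S.Nonempty := ⟨_, hpS⟩
  have hL₀ : (IntermediateField.adjoin ℚ {ζ} : IntermediateField ℚ Qbar).IsUnramifiedOutside S :=
    Fermat.Agent.S55.UnrKummer72.isUnramifiedOutside_rootOfUnity hpS hζ.pow_eq_one
  exact CS79.CofinalCS.h1PrimaryVanishes_CS_res hS hL₀
    (ineqOut_of_all (firstIneqAll hS ((Fact.out : p.Prime).odd_of_ne_two hp2)) h32 hζ) V hV
    (fun σ hσ => MonoidHom.mem_ker.mpr (hmu σ hσ))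

/-- **the limit formation datum over `V`, `p`-primary global input.** -/
theorem hasFormationDatum (hpS : pPrime p ∈ S) (hp2 : p ≠ 2) (h32 : SecondIneqMu S p)
    (hmu : ∀ σ ∈ V, cycloChar p σ = 1)
    (invCp : primary p ((levV S V hV).H2 (Rep.res V.subtype (CSl S))) →+ QZ)
    (hinjCp : ∀ c : primary p ((levV S V hV).H2 (Rep.res V.subtype (CSl S))),
      invCp c = 0 → c = 0)
    (hcompatp : ∀ x : primary p ((levV S V hV).H2 (JV S V)),
      invCp (mapPrimary p ((levV S V hV).H2map
        (resLin (A := JSp S) (B := CSl S) V.subtype (aS S))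
        ((aS_equivariant S).res V.subtype)).toAddMonoidHom x) =
        ∑ w, invJu S V hV w (x : (levV S V hV).H2 (JV S V))) :
    CDArith63.P1Chain.HasFormationDatum p S V hV := by
  have : Nonempty (PlaceV S V hV) := nonempty_placeV S V hV ⟨_, hpS⟩
  exact S1Limit41.Formation.hasFormationDatum_of_class S V hV (ClassData72.shortExact S)
    (isSmooth_CSl S) (isPrimeToP_ClS S hpS) (aS_equivariant S) (fun j => phi_πCS S j)
    (invJp S V hV) (hinjp S V hV) (hsurjp S V hV hpS) invCp hinjCp hcompatp
    (hH1C S V hV hpS hp2 h32 hmu) (ClassDatum.hH3J p S V hV)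

/-- **(P1), literally, from the second inequality (32c-B) and the `p`-primary global invariant
(35 + L-d).** -/
theorem globalRightExact (hpS : pPrime p ∈ S) (hp2 : p ≠ 2) (h32 : SecondIneqMu S p)
    (hCp : ∀ (V : Subgroup GQ) (hV : IsOpenSub (globalLevels S) V),
      (∀ σ ∈ V, cycloChar p σ = 1) →
      ∃ invCp : primary p ((levV S V hV).H2 (Rep.res V.subtype (CSl S))) →+ QZ,
        (∀ c : primary p ((levV S V hV).H2 (Rep.res V.subtype (CSl S))), invCp c = 0 → c = 0) ∧
        (∀ x : primary p ((levV S V hV).H2 (JV S V)),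
          invCp (mapPrimary p ((levV S V hV).H2map
            (resLin (A := JSp S) (B := CSl S) V.subtype (aS S))
            ((aS_equivariant S).res V.subtype)).toAddMonoidHom x) =
            ∑ w, invJu S V hV w (x : (levV S V hV).H2 (JV S V)))) :
    Contract34.GlobalRightExact p S :=
  CDArith63.P1Chain.globalRightExact_of_datum hpS (fun V hV hmu => by
    obtain ⟨invCp, hinjCp, hcompatp⟩ := hCp V hV hmu
    exact hasFormationDatum S V hV hpS hp2 h32 hmu invCp hinjCp hcompatp)

end Fermat.Agent.S55.P1Lim62.FinalP
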