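/-
S55 / (L-b) P1 limit half (helper62), part 9: the P1 endpoint, `p`-primary, WITHOUT the second
inequality hypothesis and with a GENERIC TWIST of the local invariants.

* helper30/helper77: `H¹(V, C_S)(p) = 0` is unconditional on main
  (`Adapt77.Leaf33Final.h1PrimaryVanishes_CS_res`), so `h32 : SecondIneqMu S p` of
  `P1Lim62.FinalP` disappears.
* helper72's seam flag: the finite-level total invariant of the 35 chain is twisted at the places
  above `p` by an unknown `p`-adic unit (`EpsHom71.epsHom`), so the sum formula reads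
  `∑_w a_w (inv_w (loc_w x))` for a family `a_w : ℚ/ℤ →+ ℚ/ℤ` of maps which are injective and
  surjective on `p`-power torsion (`TwistFamily72.epsAt`).  The formation datum is existential in
  the local invariants, so any such twist is harmless.

Result: `Contract34.GlobalRightExact p S` (literal P1) ⇐ for every open `V` fixing `μ_p`:
a twist family `a` and an injective `invCp : primary p (H²(V, C_S)) →+ ℚ/ℤ` with
`invCp ([(·,0)]_* x) = ∑_w a_w (inv_w (loc_w x))` on `p`-primary `x ∈ H²(V, J_S)`.  NOTHING else.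
-/
import Fermat.Agent.S55.P1Lim62.FinalP
import Fermat.Agent.S55.Adapt77.Leaf33Final

set_option autoImplicit false
set_option linter.unusedSectionVars false
set_option linter.unusedVariables false

open CategoryTheory groupCohomology ExtCitation

namespace Fermat.Agent.S55.P1Lim62.FinalT

open Fermat.Agent.S55.Profin15 Fermat.Agent.S55.Profin15.LevelStr Fermat.Agent.S55.CD3
open Fermat.Agent.S55.Idele73.Basic
open Fermat.Agent.S55.GlobalMod94.JS Fermat.Agent.S55.GlobalMod94.OpenJS
open Fermat.Agent.S55.QZ33 Fermat.Agent.S55.ClassData72 Fermat.Agent.S55.PrimaryExt14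
open Fermat.Agent.S55.S1Limit41.Global
open Fermat.Agent.S55.P1Lim62.ClassDatum Fermat.Agent.S55.P1Lim62.Final
open Fermat.Agent.S55.P1Lim62.FinalP

variable {p : ℕ} [hp : Fact p.Prime] (S : Finset Nat.Primes) (V : Subgroup GQ)
  (hV : IsOpenSub (globalLevels S) V)

/-- `H¹(V, C_S)(p) = 0`, unconditional (helper77 `Leaf33Final`). -/
theorem hH1C (hpS : pPrime p ∈ S) (hp2 : p ≠ 2) (hmu : ∀ σ ∈ V, cycloChar p σ = 1) :
    CS79.Primary.H1PrimaryVanishes (levV S V hV) p (Rep.res V.subtype (CSl S)) :=
  Adapt77.Leaf33Final.h1PrimaryVanishes_CS_res hpS hp2 V hV hmu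

variable (a : PlaceV S V hV → (QZ →+ QZ))

/-- the twisted local invariants on the `p`-primary part of `H²(V, J_S)` -/
noncomputable def invJa (w : PlaceV S V hV) :
    primary p ((levV S V hV).H2 (JV S V)) →+ QZ :=
  (a w).comp (invJp (p := p) S V hV w)

theorem invJa_apply (w : PlaceV S V hV) (x : primary p ((levV S V hV).H2 (JV S V))) :
    invJa (p := p) S V hV a w x = a w (invJu S V hV w (x : (levV S V hV).H2 (JV S V))) := rfl

theorem hinja (ha : ∀ w, Function.Injective (a w))
    (x : primary p ((levV S V hV).H2 (JV S V)))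
    (h : ∀ w, invJa (p := p) S V hV a w x = 0) : x = 0 :=
  hinjp S V hV x (fun w => ha w (by rw [map_zero]; exact h w))

theorem hsurja (hpS : pPrime p ∈ S)
    (ha' : ∀ (w : PlaceV S V hV) (t : QZ) (n : ℕ), (p ^ n) • t = 0 →
      ∃ s : QZ, (p ^ n) • s = 0 ∧ a w s = t)
    (t : PlaceV S V hV → QZ) (n : ℕ) (ht : ∀ w, (p ^ n) • t w = 0) :
    ∃ x : primary p ((levV S V hV).H2 (JV S V)),
      (p ^ n) • x = 0 ∧ ∀ w, invJa (p := p) S V hV a w x = t w := by
  choose s hs0 hst using fun w => ha' w (t w) n (ht w)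
  obtain ⟨x, hx0, hxs⟩ := hsurjp S V hV hpS s n hs0
  exact ⟨x, hx0, fun w => by rw [invJa, AddMonoidHom.comp_apply, hxs w, hst w]⟩

/-- **the limit formation datum over `V`: only the `p`-primary global invariant (with an arbitrary
admissible twist of the local invariants) is assumed.** -/
theorem hasFormationDatum (hpS : pPrime p ∈ S) (hp2 : p ≠ 2)
    (hmu : ∀ σ ∈ V, cycloChar p σ = 1)
    (ha : ∀ w, Function.Injective (a w))
    (ha' : ∀ (w : PlaceV S V hV) (t : QZ) (n : ℕ), (p ^ n) • t = 0 →
      ∃ s : QZ, (p ^ n) • s = 0 ∧ a w s = t)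
    (invCp : primary p ((levV S V hV).H2 (Rep.res V.subtype (CSl S))) →+ QZ)
    (hinjCp : ∀ c : primary p ((levV S V hV).H2 (Rep.res V.subtype (CSl S))),
      invCp c = 0 → c = 0)
    (hcompatp : ∀ x : primary p ((levV S V hV).H2 (JV S V)),
      invCp (mapPrimary p ((levV S V hV).H2map
        (resLin (A := JSp S) (B := CSl S) V.subtype (aS S))
        ((aS_equivariant S).res V.subtype)).toAddMonoidHom x) =
        ∑ w, a w (invJu S V hV w (x : (levV S V hV).H2 (JV S V)))) :
    CDArith63.P1Chain.HasFormationDatum p S V hV := by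
  have : Nonempty (PlaceV S V hV) := nonempty_placeV S V hV ⟨_, hpS⟩
  exact S1Limit41.Formation.hasFormationDatum_of_class S V hV (ClassData72.shortExact S)
    (isSmooth_CSl S) (isPrimeToP_ClS S hpS) (aS_equivariant S) (fun j => phi_πCS S j)
    (invJa S V hV a) (hinja S V hV a ha) (hsurja S V hV a hpS ha') invCp hinjCp hcompatp
    (hH1C S V hV hpS hp2 hmu) (ClassDatum.hH3J p S V hV)

/-- the untwisted special case `a = id`. -/
theorem hasFormationDatum_id (hpS : pPrime p ∈ S) (hp2 : p ≠ 2)
    (hmu : ∀ σ ∈ V, cycloChar p σ = 1)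
    (invCp : primary p ((levV S V hV).H2 (Rep.res V.subtype (CSl S))) →+ QZ)
    (hinjCp : ∀ c : primary p ((levV S V hV).H2 (Rep.res V.subtype (CSl S))),
      invCp c = 0 → c = 0)
    (hcompatp : ∀ x : primary p ((levV S V hV).H2 (JV S V)),
      invCp (mapPrimary p ((levV S V hV).H2map
        (resLin (A := JSp S) (B := CSl S) V.subtype (aS S))
        ((aS_equivariant S).res V.subtype)).toAddMonoidHom x) =
        ∑ w, invJu S V hV w (x : (levV S V hV).H2 (JV S V))) :
    CDArith63.P1Chain.HasFormationDatum p S V hV :=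
  hasFormationDatum S V hV (fun _ => AddMonoidHom.id QZ) hpS hp2 hmu
    (fun _ => Function.injective_id) (fun _ t _ ht => ⟨t, ht, rfl⟩) invCp hinjCp hcompatp

/-- **(P1), literally, from the `p`-primary global invariant ALONE** (35 + L-d), the local
invariants being allowed an arbitrary admissible twist `a` (e.g. `TwistFamily72.epsAt`). -/
theorem globalRightExact (hpS : pPrime p ∈ S) (hp2 : p ≠ 2)
    (hCp : ∀ (V : Subgroup GQ) (hV : IsOpenSub (globalLevels S) V),
      (∀ σ ∈ V, cycloChar p σ = 1) →
      ∃ a : PlaceV S V hV → (QZ →+ QZ),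
        (∀ w, Function.Injective (a w)) ∧
        (∀ (w : PlaceV S V hV) (t : QZ) (n : ℕ), (p ^ n) • t = 0 →
          ∃ s : QZ, (p ^ n) • s = 0 ∧ a w s = t) ∧
        ∃ invCp : primary p ((levV S V hV).H2 (Rep.res V.subtype (CSl S))) →+ QZ,
          (∀ c : primary p ((levV S V hV).H2 (Rep.res V.subtype (CSl S))),
            invCp c = 0 → c = 0) ∧
          (∀ x : primary p ((levV S V hV).H2 (JV S V)),
            invCp (mapPrimary p ((levV S V hV).H2map
              (resLin (A := JSp S) (B := CSl S) V.subtype (aS S))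
              ((aS_equivariant S).res V.subtype)).toAddMonoidHom x) =
              ∑ w, a w (invJu S V hV w (x : (levV S V hV).H2 (JV S V))))) :
    Contract34.GlobalRightExact p S :=
  CDArith63.P1Chain.globalRightExact_of_datum hpS (fun V hV hmu => by
    obtain ⟨a, ha, ha', invCp, hinjCp, hcompatp⟩ := hCp V hV hmu
    exact hasFormationDatum S V hV a hpS hp2 hmu ha ha' invCp hinjCp hcompatp)

/-- **(P1) from the untwisted `p`-primary global invariant alone.** -/
theorem globalRightExact_id (hpS : pPrime p ∈ S) (hp2 : p ≠ 2)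
    (hCp : ∀ (V : Subgroup GQ) (hV : IsOpenSub (globalLevels S) V),
      (∀ σ ∈ V, cycloChar p σ = 1) →
      ∃ invCp : primary p ((levV S V hV).H2 (Rep.res V.subtype (CSl S))) →+ QZ,
        (∀ c : primary p ((levV S V hV).H2 (Rep.res V.subtype (CSl S))), invCp c = 0 → c = 0) ∧
        (∀ x : primary p ((levV S V hV).H2 (JV S V)),
          invCp (mapPrimary p ((levV S V hV).H2map
            (resLin (A := JSp S) (B := CSl S) V.subtype (aS S))
            ((aS_equivariant S).res V.subtype)).toAddMonoidHom x) =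
            ∑ w, invJu S V hV w (x : (levV S V hV).H2 (JV S V)))) :
    Contract34.GlobalRightExact p S :=
  CDArith63.P1Chain.globalRightExact_of_datum hpS (fun V hV hmu => by
    obtain ⟨invCp, hinjCp, hcompatp⟩ := hCp V hV hmu
    exact hasFormationDatum_id S V hV hpS hp2 hmu invCp hinjCp hcompatp)

end Fermat.Agent.S55.P1Lim62.FinalT
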