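/-
S55 / (L-b) P1 limit half (helper62), part 10: dictionary between the two `J`-side vocabularies.

`P1Lim62.Final.invJu S V hV w` (helper62) and helper94's
`GlobalMod94.JSideUncond.invBrU S V hV w ∘ locW S V hV w` are THE SAME MAP (both are helper28's
`invW` of the decomposition group `twSub (rS S q) V x`, composed with the localisation `locW`),
by `rfl`.  Hence the `p`-primary endpoint `P1Lim62.FinalT` can be fed with a sum formula stated
against helper94's `invBrU` / `invJS` (the shape produced by the (G3)/(H3) owners).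
-/
import Fermat.Agent.S55.P1Lim62.FinalT
import Fermat.Agent.S55.GlobalMod94.JSideUncond

set_option autoImplicit false
set_option linter.unusedSectionVars false
set_option linter.unusedVariables false

open CategoryTheory groupCohomology ExtCitation

namespace Fermat.Agent.S55.P1Lim62.FinalU

open Fermat.Agent.S55.Profin15 Fermat.Agent.S55.Profin15.LevelStr Fermat.Agent.S55.CD3
open Fermat.Agent.S55.Idele73.Basic
open Fermat.Agent.S55.GlobalMod94.JS Fermat.Agent.S55.GlobalMod94.OpenJS
open Fermat.Agent.S55.GlobalMod94.JSideUncond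
open Fermat.Agent.S55.QZ33 Fermat.Agent.S55.ClassData72 Fermat.Agent.S55.PrimaryExt14
open Fermat.Agent.S55.S1Limit41.Global
open Fermat.Agent.S55.P1Lim62.Final Fermat.Agent.S55.P1Lim62.FinalP

variable {p : ℕ} [hp : Fact p.Prime] (S : Finset Nat.Primes) (V : Subgroup GQ)
  (hV : IsOpenSub (globalLevels S) V)

/-- helper62's `invJu w` IS helper94's `invBrU w ∘ locW w` -/
theorem invJu_eq (w : PlaceV S V hV) :
    invJu S V hV w =
      (invBrU S V hV w).toAddMonoidHom.comp (locW S V hV w).toAddMonoidHom := rfl

theorem invJu_apply (w : PlaceV S V hV)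
    (x : (restrictLevels (globalLevels S) V hV).H2 (Rep.res V.subtype (JSp S))) :
    invJu S V hV w x = invBrU S V hV w (locW S V hV w x) := rfl

/-- the sum of helper62's local invariants is helper94's total invariant `invJS` -/
theorem sum_invJu (x : (restrictLevels (globalLevels S) V hV).H2 (Rep.res V.subtype (JSp S))) :
    ∑ w, invJu S V hV w x = invJS S V hV x :=
  (invJS_apply S V hV x).symm

/-- **slot A3 over `V`, `invBrU` vocabulary**: twisted sum formula against helper94's local
invariants. -/
theorem hasFormationDatum (a : PlaceV S V hV → (QZ →+ QZ))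
    (hpS : pPrime p ∈ S) (hp2 : p ≠ 2) (hmu : ∀ σ ∈ V, cycloChar p σ = 1)
    (ha : ∀ w, Function.Injective (a w))
    (ha' : ∀ (w : PlaceV S V hV) (t : QZ) (n : ℕ), (p ^ n) • t = 0 →
      ∃ s : QZ, (p ^ n) • s = 0 ∧ a w s = t)
    (invCp : primary p ((levV S V hV).H2 (Rep.res V.subtype (CSl S))) →+ QZ)
    (hinjCp : ∀ c : primary p ((levV S V hV).H2 (Rep.res V.subtype (CSl S))),
      invCp c = 0 → c = 0)
    (hcompatp : ∀ x : primary p ((levV S V hV).H2 (JV S V)),
      invCp (mapPrimary p ((levV S V hV).H2map
        (resLin (A := JSp S) (B := CSl S) V.subtype (aS S))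
        ((aS_equivariant S).res V.subtype)).toAddMonoidHom x) =
        ∑ w, a w (invBrU S V hV w (locW S V hV w (x : (levV S V hV).H2 (JV S V))))) :
    CDArith63.P1Chain.HasFormationDatum p S V hV :=
  FinalT.hasFormationDatum S V hV a hpS hp2 hmu ha ha' invCp hinjCp hcompatp

/-- **slot A3 over `V`, untwisted, against helper94's total invariant `invJS`.** -/
theorem hasFormationDatum_invJS
    (hpS : pPrime p ∈ S) (hp2 : p ≠ 2) (hmu : ∀ σ ∈ V, cycloChar p σ = 1)
    (invCp : primary p ((levV S V hV).H2 (Rep.res V.subtype (CSl S))) →+ QZ)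
    (hinjCp : ∀ c : primary p ((levV S V hV).H2 (Rep.res V.subtype (CSl S))),
      invCp c = 0 → c = 0)
    (hcompatp : ∀ x : primary p ((levV S V hV).H2 (JV S V)),
      invCp (mapPrimary p ((levV S V hV).H2map
        (resLin (A := JSp S) (B := CSl S) V.subtype (aS S))
        ((aS_equivariant S).res V.subtype)).toAddMonoidHom x) =
        invJS S V hV (x : (levV S V hV).H2 (JV S V))) :
    CDArith63.P1Chain.HasFormationDatum p S V hV :=
  FinalT.hasFormationDatum_id S V hV hpS hp2 hmu invCp hinjCp
    (fun x => (hcompatp x).trans (sum_invJu S V hV _).symm)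

/-- **(P1), literally, `invBrU` vocabulary.** -/
theorem globalRightExact (hpS : pPrime p ∈ S) (hp2 : p ≠ 2)
    (hCp : ∀ (V : Subgroup GQ) (hV : IsOpenSub (globalLevels S) V),
      (∀ σ ∈ V, cycloChar p σ = 1) →
      ∃ a : PlaceV S V hV → (QZ →+ QZ),
        (∀ w, Function.Injective (a w)) ∧
        (∀ (w : PlaceV S V hV) (t : QZ) (n : ℕ), (p ^ n) • t = 0 →
          ∃ s : QZ, (p ^ n) • s = 0 ∧ a w s = t) ∧
        ∃ invCp : primary p ((levV S V hV).H2 (Rep.res V.subtype (CSl S))) →+ QZ,
          (∀ c : primary p ((levV S V hV).H2 (Rep.res V.subtype (CSl S))),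
            invCp c = 0 → c = 0) ∧
          (∀ x : primary p ((levV S V hV).H2 (JV S V)),
            invCp (mapPrimary p ((levV S V hV).H2map
              (resLin (A := JSp S) (B := CSl S) V.subtype (aS S))
              ((aS_equivariant S).res V.subtype)).toAddMonoidHom x) =
              ∑ w, a w (invBrU S V hV w
                (locW S V hV w (x : (levV S V hV).H2 (JV S V)))))) :
    Contract34.GlobalRightExact p S :=
  FinalT.globalRightExact S hpS hp2 hCp

end Fermat.Agent.S55.P1Lim62.FinalU
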